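import Mathlib
import Fermat.Agent.S24.FF.PlacePrime

/-!
# S37/FFNorm: places of `Frac R` centred on a Dedekind domain `R` = height one primes of `R`
-/

set_option autoImplicit false

open AlgebraicCurve IsDedekindDomain

namespace Fermat.Agent.S37.FFNorm

variable {K R F : Type*} [Field K] [CommRing R] [IsDedekindDomain R] [Field F] [Algebra K F]
  [Algebra R F] [IsFractionRing R F] [Algebra K R] [IsScalarTower K R F]

theorem ofH_ord (P : HeightOneSpectrum R) (f : F) :
    (Place.ofHeightOneSpectrum (K := K) P).ord f = -(WithZero.log (P.valuation F f)) :=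
  S24.FF.ord_eq_of_valuationSubring_eq (Place.ofHeightOneSpectrum (K := K) P) (P.valuation F) rfl
    (P.valuation_exists_uniformizer F) f

theorem ofH_ord_pos_iff (P : HeightOneSpectrum R) (s : R) (hs : s ≠ 0) :
    0 < (Place.ofHeightOneSpectrum (K := K) P).ord (algebraMap R F s) ↔ s ∈ P.asIdeal := by
  have hsF : algebraMap R F s ≠ 0 := by simpa using hs
  have hval : P.valuation F (algebraMap R F s) ≠ 0 := (Valuation.ne_zero_iff _).mpr hsF
  rw [← P.valuation_lt_one_iff_mem (K := F), ofH_ord]
  conv_rhs => rw [← WithZero.exp_log hval, ← WithZero.exp_zero, WithZero.exp_lt_exp]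
  omega

theorem ofH_injective :
    Function.Injective (fun P : HeightOneSpectrum R =>
      (Place.ofHeightOneSpectrum (K := K) P : Place K F)) := by
  intro P Q h
  apply HeightOneSpectrum.ext
  ext s
  rcases eq_or_ne s 0 with rfl | hs
  · simp
  have h' : (Place.ofHeightOneSpectrum (K := K) P : Place K F)
      = Place.ofHeightOneSpectrum (K := K) Q := h
  rw [← ofH_ord_pos_iff (K := K) (F := F) P s hs, ← ofH_ord_pos_iff (K := K) (F := F) Q s hs, h']

theorem exists_ofH_eq (v : Place K F) (hv : ∀ s : R, algebraMap R F s ∈ v.toValuationSubring) :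
    ∃ P : HeightOneSpectrum R, Place.ofHeightOneSpectrum (K := K) P = v := by
  let j : R →+* v.toValuationSubring :=
    { toFun := fun s => ⟨algebraMap R F s, hv s⟩
      map_one' := Subtype.ext (map_one _)
      map_mul' := fun _ _ => Subtype.ext (map_mul _ _ _)
      map_zero' := Subtype.ext (map_zero _)
      map_add' := fun _ _ => Subtype.ext (map_add _ _ _) }
  let P₀ : Ideal R := (IsLocalRing.maximalIdeal v.toValuationSubring).comap j
  have hprime : P₀.IsPrime := Ideal.comap_isPrime _ _
  have hnotmem : ∀ t : R, t ∉ P₀ → IsUnit (j t) := by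
    intro t ht
    by_contra hu
    exact ht ((IsLocalRing.mem_maximalIdeal _).mpr hu)
  have hinv : ∀ t : R, t ∉ P₀ → (algebraMap R F t)⁻¹ ∈ v.toValuationSubring := by
    intro t ht
    obtain ⟨u, hu⟩ := hnotmem t ht
    have h3 : ((u : v.toValuationSubring) : F) * (((u⁻¹ : v.toValuationSubringˣ) :
        v.toValuationSubring) : F) = 1 := by
      have h := congrArg (Subtype.val) (u.mul_inv)
      rwa [MulMemClass.coe_mul, OneMemClass.coe_one] at h
    have h4 : ((u : v.toValuationSubring) : F) = algebraMap R F t := by rw [hu]; rfl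
    rw [h4] at h3
    rw [← eq_inv_of_mul_eq_one_right h3]
    exact ((u⁻¹ : v.toValuationSubringˣ) : v.toValuationSubring).2
  have hne : P₀ ≠ ⊥ := by
    intro hbot
    apply v.ne_top'
    refine SetLike.ext fun g => ⟨fun _ => ValuationSubring.mem_top g, fun _ => ?_⟩
    obtain ⟨a, b, hb, hab⟩ := IsFractionRing.div_surjective (A := R) g
    rw [← hab, div_eq_mul_inv]
    have hb0 : b ≠ 0 := nonZeroDivisors.ne_zero hb
    have hbP : b ∉ P₀ := by rw [hbot]; simpa using hb0
    exact mul_mem (j a).2 (hinv b hbP)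
  refine ⟨⟨P₀, hprime, hne⟩, S24.FF.eq_of_le fun f hf => ?_⟩
  have hf' : (HeightOneSpectrum.valuation F (⟨P₀, hprime, hne⟩ : HeightOneSpectrum R)) f ≤ 1 :=
    (Valuation.mem_valuationSubring_iff _ _).mp hf
  obtain ⟨n, d, hnd⟩ := HeightOneSpectrum.exists_primeCompl_mul_eq_of_integer _ f hf'
  have hd : (d : R) ∉ P₀ := d.2
  have hd0 : algebraMap R F (d : R) ≠ 0 := by
    intro h0
    apply hd
    have : (d : R) = 0 := by simpa using h0
    rw [this]; exact zero_mem _
  have : f = algebraMap R F n * (algebraMap R F (d : R))⁻¹ := by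
    rw [eq_mul_inv_iff_mul_eq₀ hd0]
    exact hnd
  rw [this]
  exact mul_mem (j n).2 (hinv _ hd)

end Fermat.Agent.S37.FFNorm
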