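import Mathlib
import Fermat.Agent.S24.FF.PlaceBasic

/-!
# S37/FFNorm: additive functions on the fraction field of a semilocal Dedekind domain

If `A : Lˣ → ℤ` is additive, kills the units of `S` and takes the value `1` on every generator of
a height one prime, then `A g = ∑_v ord_v g`.
-/

set_option autoImplicit false

open IsDedekindDomain

namespace Fermat.Agent.S37.FFNorm

variable {S L : Type*} [CommRing S] [IsDedekindDomain S] [Field L] [Algebra S L]
  [IsFractionRing S L]

theorem ordFun_prod {ι : Type*} (A : L → ℤ)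
    (hmul : ∀ x y, x ≠ 0 → y ≠ 0 → A (x * y) = A x + A y) (s : Finset ι) (f : ι → L)
    (hf : ∀ i ∈ s, f i ≠ 0) : A (∏ i ∈ s, f i) = ∑ i ∈ s, A (f i) := by
  classical
  induction s using Finset.induction_on with
  | empty => simpa using S24.FF.ordFun_one A hmul
  | insert a s ha ih =>
    rw [Finset.prod_insert ha, Finset.sum_insert ha,
      hmul _ _ (hf a (Finset.mem_insert_self a s))
        (Finset.prod_ne_zero_iff.mpr fun i hi => hf i (Finset.mem_insert_of_mem hi)),
      ih fun i hi => hf i (Finset.mem_insert_of_mem hi)]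

theorem semilocal_formula [Fintype (HeightOneSpectrum S)] (A : L → ℤ)
    (hmul : ∀ x y, x ≠ 0 → y ≠ 0 → A (x * y) = A x + A y)
    (hunit : ∀ u u' : S, u * u' = 1 → A (algebraMap S L u) = 0)
    (hgen : ∀ (v : HeightOneSpectrum S) (π : S), v.asIdeal = Ideal.span {π} →
      A (algebraMap S L π) = 1)
    (g : L) (hg : g ≠ 0) :
    A g = ∑ v : HeightOneSpectrum S, -(WithZero.log (v.valuation L g)) := by
  classical
  have hfin : {I : Ideal S | I.IsPrime}.Finite := by
    have h1 : {I : Ideal S | I.IsPrime} ⊆
        insert ⊥ (Set.range (HeightOneSpectrum.asIdeal : HeightOneSpectrum S → Ideal S)) := by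
      intro I hI
      by_cases hb : I = ⊥
      · exact Or.inl hb
      · exact Or.inr ⟨⟨I, hI, hb⟩, rfl⟩
    exact ((Set.finite_range _).insert _).subset h1
  have hpid : IsPrincipalIdealRing S := IsPrincipalIdealRing.of_finite_primes hfin
  have hgen' : ∀ v : HeightOneSpectrum S, ∃ π : S, v.asIdeal = Ideal.span {π} := fun v =>
    ⟨_, (Ideal.span_singleton_generator v.asIdeal).symm⟩
  choose π hπ using hgen'
  have hπ0 : ∀ v, π v ≠ 0 := by
    intro v h0
    apply v.ne_bot
    rw [hπ v, h0, Ideal.span_singleton_eq_bot]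
  have hval_self : ∀ v : HeightOneSpectrum S,
      v.valuation L (algebraMap S L (π v)) = WithZero.exp (-1 : ℤ) := by
    intro v
    rw [HeightOneSpectrum.valuation_of_algebraMap]
    exact HeightOneSpectrum.intValuation_singleton v (hπ0 v) (hπ v)
  have hval_ne : ∀ v w : HeightOneSpectrum S, v ≠ w →
      v.valuation L (algebraMap S L (π w)) = 1 := by
    intro v w hvw
    rw [HeightOneSpectrum.valuation_of_algebraMap, HeightOneSpectrum.intValuation_eq_one_iff]
    intro hmem
    apply hvw
    have hle : w.asIdeal ≤ v.asIdeal := by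
      rw [hπ w, Ideal.span_singleton_le_iff_mem]
      exact hmem
    exact (HeightOneSpectrum.ext (w.isMaximal.eq_of_le v.isPrime.ne_top hle)).symm
  let c : HeightOneSpectrum S → ℤ := fun v => WithZero.log (v.valuation L g)
  let y : L := ∏ v : HeightOneSpectrum S, (algebraMap S L (π v)) ^ (-(c v))
  have hπL : ∀ v, algebraMap S L (π v) ≠ 0 := fun v => by
    simpa using hπ0 v
  have hy0 : y ≠ 0 := Finset.prod_ne_zero_iff.mpr fun v _ => zpow_ne_zero _ (hπL v)
  have hvaly : ∀ v : HeightOneSpectrum S, v.valuation L y = WithZero.exp (c v) := by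
    intro v
    rw [map_prod, Finset.prod_eq_single v]
    · rw [map_zpow₀, hval_self, ← WithZero.exp_zsmul]
      simp
    · intro w _ hwv
      rw [map_zpow₀, hval_ne v w (Ne.symm hwv), one_zpow]
    · intro hv
      exact absurd (Finset.mem_univ v) hv
  have hvalg : ∀ v : HeightOneSpectrum S, v.valuation L g = WithZero.exp (c v) := by
    intro v
    exact (WithZero.exp_log ((Valuation.ne_zero_iff _).mpr hg)).symm
  have hone : ∀ v : HeightOneSpectrum S, v.valuation L (g / y) = 1 := by
    intro v
    rw [map_div₀, hvaly, hvalg, div_self]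
    exact WithZero.exp_ne_zero
  obtain ⟨u, hu⟩ := HeightOneSpectrum.mem_integers_of_valuation_le_one L (g / y)
    fun v => (hone v).le
  obtain ⟨u', hu'⟩ := HeightOneSpectrum.mem_integers_of_valuation_le_one L (g / y)⁻¹
    fun v => by rw [map_inv₀, hone v, inv_one]
  have huu' : u * u' = 1 := by
    apply IsFractionRing.injective S L
    rw [map_mul, hu, hu', map_one]
    exact mul_inv_cancel₀ (div_ne_zero hg hy0)
  have hgy : g = algebraMap S L u * y := by rw [hu, div_mul_cancel₀ _ hy0]
  have hu0 : algebraMap S L u ≠ 0 := by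
    rw [hu]; exact div_ne_zero hg hy0
  rw [hgy, hmul _ _ hu0 hy0, hunit u u' huu', zero_add,
    ordFun_prod A hmul _ _ fun v _ => zpow_ne_zero _ (hπL v), ← hgy]
  refine Finset.sum_congr rfl fun v _ => ?_
  rw [S24.FF.ordFun_zpow A hmul (hπL v), hgen v (π v) (hπ v), mul_one]

end Fermat.Agent.S37.FFNorm
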