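import Mathlib
import Fermat.Prelude.Def_AlgebraicCurve_DivisorPushPull
import Fermat.Agent.S24.FF.Principal
import Fermat.Agent.ES.B.DivNorm
import Fermat.Agent.S37.FFNorm.Semilocal
import Fermat.Agent.S37.FFNorm.Dict

/-!
# S37/FFNorm: the local norm formula `ord_v (Norm g) = ∑_{w ∣ v} ord_w g`

`K` algebraically closed of characteristic `0`, `F` a function field in one variable over `K`,
`F'/F` finite.
-/

set_option autoImplicit false
set_option linter.style.haveILetI false

open AlgebraicCurve IsDedekindDomain IntermediateField

namespace Fermat.Agent.S37.FFNorm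

section Abstract

/-- The norm of a generator of a degree one prime above the maximal ideal of a DVR is a
uniformizer. -/
theorem irreducible_intNorm_generator {O S : Type*} [CommRing O] [IsDomain O]
    [IsDiscreteValuationRing O] [CommRing S] [IsDedekindDomain S] [Algebra O S] [Module.Finite O S]
    [Module.IsTorsionFree O S] [PerfectField (FractionRing O)] (P : Ideal S) [P.IsMaximal]
    [P.LiesOver (IsLocalRing.maximalIdeal O)] (hf : P.inertiaDeg O = 1) (π : S)
    (hπ : P = Ideal.span {π}) : Irreducible (Algebra.intNorm O S π) := by
  rw [IsDiscreteValuationRing.irreducible_iff_uniformizer, ← Ideal.relNorm_singleton, ← hπ,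
    Ideal.relNorm_eq_pow_of_isMaximal P (IsLocalRing.maximalIdeal O), hf, pow_one]

/-- Field version: the norm of a generator of a degree one prime is (the image of) a uniformizer. -/
theorem exists_irreducible_eq_norm_generator {O S F F' : Type*} [CommRing O] [IsDomain O]
    [IsDiscreteValuationRing O] [CommRing S] [IsDedekindDomain S] [Algebra O S] [Module.Finite O S]
    [Module.IsTorsionFree O S] [PerfectField (FractionRing O)]
    [Field F] [Field F'] [Algebra O F] [IsFractionRing O F] [Algebra F F'] [Algebra O F']
    [IsScalarTower O F F'] [Algebra S F'] [IsScalarTower O S F'] [IsIntegralClosure S O F']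
    [FiniteDimensional F F']
    (P : Ideal S) [P.IsMaximal]
    [P.LiesOver (IsLocalRing.maximalIdeal O)] (hf : P.inertiaDeg O = 1) (π : S)
    (hπ : P = Ideal.span {π}) :
    ∃ ϖ : O, Irreducible ϖ ∧ algebraMap O F ϖ = Algebra.norm F (algebraMap S F' π) :=
  ⟨_, irreducible_intNorm_generator P hf π hπ, Algebra.algebraMap_intNorm (A := O) (K := F)
    (L := F') (B := S) π⟩

end Abstract

section Main

variable {K F F' : Type*} [Field K] [IsAlgClosed K] [CharZero K] [Field F] [Field F']
    [Algebra K F] [Algebra K F'] [Algebra F F'] [IsScalarTower K F F'] [Module.Finite F F']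

open ES.DivNorm in
theorem exists_fiber_finset_ord_norm (y : F) (hy : Transcendental K y) [FiniteDimensional K⟮y⟯ F]
    (v : Place K F) : ∃ s : Finset (Place K F'), (∀ w, w ∈ s ↔ w.restrict F = v) ∧
    ∀ g : F', g ≠ 0 → v.ord (Algebra.norm F g) = ∑ w ∈ s, w.ord g := by
  classical
  have : CharZero F := charZero_of_injective_algebraMap (algebraMap K F).injective
  let O := v.toValuationSubring
  letI : Algebra O F' := ((algebraMap F F').comp O.subtype).toAlgebra
  haveI : IsScalarTower O F F' := IsScalarTower.of_algebraMap_eq fun _ => rfl
  haveI : IsDedekindDomain (integralClosure O F') := integralClosure.isDedekindDomain O F F'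
  haveI : IsFractionRing (integralClosure O F') F' :=
    integralClosure.isFractionRing_of_finite_extension F F'
  haveI : Finite (HeightOneSpectrum (integralClosure O F')) :=
    finite_heightOneSpectrum_integralClosure F
  letI : Algebra K (integralClosure O F') :=
    ((algebraMap O (integralClosure O F')).comp (algebraMap K O)).toAlgebra
  haveI : IsScalarTower K (integralClosure O F') F' := IsScalarTower.of_algebraMap_eq fun a => by
    rw [IsScalarTower.algebraMap_apply K F F']
    rfl
  haveI : IsScalarTower K O (integralClosure O F') := IsScalarTower.of_algebraMap_eq fun a => rfl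
  haveI : Module.Finite O (integralClosure O F') := IsIntegralClosure.finite O F F' _
  have hinjO : Function.Injective (algebraMap O (integralClosure O F')) := by
    have h1 : Function.Injective (algebraMap O F') := by
      rw [IsScalarTower.algebraMap_eq O F F']
      exact (algebraMap F F').injective.comp (IsFractionRing.injective O F)
    intro a b hab
    apply h1
    have := congrArg (algebraMap (integralClosure O F') F') hab
    rwa [← IsScalarTower.algebraMap_apply, ← IsScalarTower.algebraMap_apply] at this
  haveI : Module.IsTorsionFree O (integralClosure O F') :=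
    Module.isTorsionFree_iff_algebraMap_injective.mpr hinjO
  cases nonempty_fintype (HeightOneSpectrum (integralClosure O F'))
  let Φ : HeightOneSpectrum (integralClosure O F') → Place K F' :=
    fun Q => Place.ofHeightOneSpectrum (K := K) Q
  have hΦord : ∀ Q g, (Φ Q).ord g = -(WithZero.log (Q.valuation F' g)) := fun Q g =>
    S24.FF.ord_eq_of_valuationSubring_eq (Place.ofHeightOneSpectrum (K := K) Q)
      (Q.valuation F') rfl (Q.valuation_exists_uniformizer F') g
  have hΦres : ∀ Q, (Φ Q).restrict F = v := by
    intro Q
    refine (S24.FF.eq_of_le fun f hf => ?_).symm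
    show algebraMap F F' f ∈ (Q.valuation F').valuationSubring
    rw [Valuation.mem_valuationSubring_iff]
    exact Q.valuation_le_one (algebraMap O (integralClosure O F') ⟨f, hf⟩)
  have hΦinj : Function.Injective Φ := ofH_injective
  have hΦsurj : ∀ w : Place K F', w.restrict F = v → ∃ Q, Φ Q = w := by
    intro w hw
    refine exists_ofH_eq w fun s => ?_
    have hle : ∀ r : O, algebraMap F F' (r : F) ∈ w.toValuationSubring := by
      intro r
      have h1 : (r : F) ∈ (w.restrict F).toValuationSubring := by rw [hw]; exact r.2
      exact h1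
    let ι : O →+* w.toValuationSubring :=
      { toFun := fun r => ⟨algebraMap F F' (r : F), hle r⟩
        map_one' := Subtype.ext (map_one _)
        map_mul' := fun _ _ => Subtype.ext (map_mul _ _ _)
        map_zero' := Subtype.ext (map_zero _)
        map_add' := fun _ _ => Subtype.ext (map_add _ _ _) }
    obtain ⟨p, hp, hpf⟩ := s.2
    have hint : IsIntegral w.toValuationSubring (s : F') := by
      refine ⟨p.map ι, hp.map ι, ?_⟩
      rw [Polynomial.eval₂_map]
      have : (algebraMap w.toValuationSubring F').comp ι = algebraMap O F' := rfl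
      rw [this]
      exact hpf
    obtain ⟨a, ha⟩ :=
      (IsIntegrallyClosed.isIntegral_iff (R := w.toValuationSubring) (K := F')).mp hint
    show (s : F') ∈ w.toValuationSubring
    rw [← ha]
    exact a.2
  refine ⟨Finset.univ.image Φ, ?_, ?_⟩
  · intro w
    rw [Finset.mem_image]
    constructor
    · rintro ⟨Q, -, rfl⟩
      exact hΦres Q
    · intro h
      obtain ⟨Q, hQ⟩ := hΦsurj w h
      exact ⟨Q, Finset.mem_univ _, hQ⟩
  intro g hg
  rw [Finset.sum_image (fun a _ b _ h => hΦinj h)]
  simp_rw [hΦord]
  have hint : ∀ x : integralClosure O F', 0 ≤ v.ord (Algebra.norm F (x : F')) := by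
    intro x
    have h1 : IsIntegral O (Algebra.norm F (x : F')) := Algebra.isIntegral_norm F x.2
    obtain ⟨z, hz⟩ := IsIntegrallyClosed.isIntegral_iff.mp h1
    rw [← hz]
    exact S24.FF.ord_nonneg_of_mem v z.2
  refine semilocal_formula (S := integralClosure O F') (fun g => v.ord (Algebra.norm F g))
    ?_ ?_ ?_ g hg
  · intro x y hx hy
    show v.ord (Algebra.norm F (x * y)) = _
    rw [map_mul, v.ord_mul (Algebra.norm_ne_zero_iff.mpr hx) (Algebra.norm_ne_zero_iff.mpr hy)]
  · intro u u' huu'
    show v.ord (Algebra.norm F (u : F')) = 0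
    have hu0 : (u : F') ≠ 0 := by
      intro h0
      have := congrArg (fun x : integralClosure O F' => (x : F')) huu'
      simp only [MulMemClass.coe_mul, OneMemClass.coe_one, h0, zero_mul] at this
      exact zero_ne_one this
    have hu'0 : (u' : F') ≠ 0 := by
      intro h0
      have := congrArg (fun x : integralClosure O F' => (x : F')) huu'
      simp only [MulMemClass.coe_mul, OneMemClass.coe_one, h0, mul_zero] at this
      exact zero_ne_one this
    have h1 := hint u
    have h2 := hint u'
    have h3 : Algebra.norm F (u : F') * Algebra.norm F (u' : F') = 1 := by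
      rw [← map_mul]
      have := congrArg (fun x : integralClosure O F' => (x : F')) huu'
      simp only [MulMemClass.coe_mul, OneMemClass.coe_one] at this
      rw [this, map_one]
    have h4 := congrArg v.ord h3
    rw [v.ord_mul (Algebra.norm_ne_zero_iff.mpr hu0) (Algebra.norm_ne_zero_iff.mpr hu'0),
      v.ord_one] at h4
    omega
  · intro Q π hπ
    show v.ord (Algebra.norm F (π : F')) = 1
    have hmaxQ : Q.asIdeal.IsMaximal := Q.isMaximal
    have hover : Q.asIdeal.LiesOver (IsLocalRing.maximalIdeal O) := by
      constructor
      have hne : Q.asIdeal.comap (algebraMap O (integralClosure O F')) ≠ ⊥ := by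
        obtain ⟨x, hx, hx0⟩ := Submodule.exists_mem_ne_zero_of_ne_bot Q.ne_bot
        exact Ideal.comap_ne_bot_of_integral_mem hx0 hx
          (Algebra.IsIntegral.isIntegral (R := O) x)
      have hprime : (Q.asIdeal.comap (algebraMap O (integralClosure O F'))).IsPrime :=
        Ideal.comap_isPrime _ _
      exact (IsLocalRing.eq_maximalIdeal (hprime.isMaximal hne)).symm
    have hcharO : CharZero O := charZero_of_injective_algebraMap (algebraMap K O).injective
    have hres : ∀ r : O, ∃ c : K, r - algebraMap K O c ∈ IsLocalRing.maximalIdeal O := by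
      intro r
      obtain ⟨c, hc⟩ := S24.FF.DegOne.exists_residue_eq K y hy v r
      refine ⟨c, ?_⟩
      rw [← IsLocalRing.residue_eq_zero_iff, map_sub, ← hc, sub_eq_zero]
      rfl
    have hf1 : Q.asIdeal.inertiaDeg O = 1 := by
      rw [← Ideal.inertiaDeg'_eq_inertiaDeg (IsLocalRing.maximalIdeal O) Q.asIdeal]
      exact S24.FF.inertiaDeg_eq_one_aux (K := K) _ _ hres
    obtain ⟨ϖ, hirr, hnorm⟩ := exists_irreducible_eq_norm_generator (O := O) (F := F) (F' := F')
      Q.asIdeal hf1 π hπ
    have hnorm' : Algebra.norm F (π : F') = (ϖ : F) := hnorm.symm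
    rw [hnorm']
    exact v.ord_coe_irreducible hirr

theorem ord_norm_eq_sum (y : F) (hy : Transcendental K y) [FiniteDimensional K⟮y⟯ F]
    (v : Place K F) (s : Finset (Place K F')) (hs : ∀ w, w ∈ s ↔ w.restrict F = v)
    (g : F') (hg : g ≠ 0) :
    v.ord (Algebra.norm F g) = ∑ w ∈ s, w.ord g := by
  obtain ⟨s', hs', h⟩ := exists_fiber_finset_ord_norm (F' := F') y hy v
  have : s = s' := Finset.ext fun w => by rw [hs, hs']
  rw [this]
  exact h g hg

end Main

end Fermat.Agent.S37.FFNorm
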