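import Mathlib
import Fermat.Agent.S37.FFNorm.Local

/-!
# S37/FFNorm: `HasPrincipalDivisors`, `PushforwardNormFormula`, `FundamentalIdentity`
for finite extensions of function fields over an algebraically closed field of characteristic `0`.
-/

set_option autoImplicit false

open AlgebraicCurve IsDedekindDomain IntermediateField

namespace Fermat.Agent.S37.FFNorm

variable {K F F' : Type*} [Field K] [IsAlgClosed K] [CharZero K] [Field F] [Field F']
    [Algebra K F] [Algebra K F']

theorem hasPrincipalDivisors (y : F) (hy : Transcendental K y) [FiniteDimensional K⟮y⟯ F] :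
    HasPrincipalDivisors K F := by
  classical
  refine ⟨fun f hf => ?_⟩
  have hfin := S24.FF.finite_ord_ne_zero K y hy hf
  let D : Divisor K F := Finsupp.onFinset hfin.toFinset (fun v => v.ord f) (by
    intro v hv
    simpa using hv)
  have hD : ∀ v, D v = v.ord f := fun v => rfl
  exact ⟨D, hD, S24.FF.degree_eq_zero_of_principal K y hy hf D hD⟩

variable [Algebra F F'] [IsScalarTower K F F'] [Module.Finite F F']

theorem inertiaDeg_eq_one (y : F) (hy : Transcendental K y) [FiniteDimensional K⟮y⟯ F]
    (y' : F') (hy' : Transcendental K y') [FiniteDimensional K⟮y'⟯ F'] (w : Place K F') :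
    w.inertiaDeg F = 1 := by
  have h := w.deg_restrict_mul_inertiaDeg (F := F)
  rw [S24.FF.deg_eq_one K y hy, S24.FF.deg_eq_one K y' hy', one_mul] at h
  exact h

theorem pushforwardNormFormula (y : F) (hy : Transcendental K y) [FiniteDimensional K⟮y⟯ F]
    (y' : F') (hy' : Transcendental K y') [FiniteDimensional K⟮y'⟯ F'] :
    Divisor.PushforwardNormFormula K F F' := by
  classical
  intro f hf D hD v
  obtain ⟨s, hs, hsum⟩ := exists_fiber_finset_ord_norm (F' := F') y hy v
  rw [Divisor.pushforward_apply, hsum f hf, ← Finset.sum_filter]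
  refine Finset.sum_subset_zero_on_sdiff ?_ ?_ ?_
  · intro w hw
    rw [Finset.mem_filter] at hw
    exact (hs w).mpr hw.2
  · intro w hw
    rw [Finset.mem_sdiff, Finset.mem_filter, hs] at hw
    have : w ∉ D.support := fun h => hw.2 ⟨h, hw.1⟩
    rw [Finsupp.notMem_support_iff, hD] at this
    exact this
  · intro w _
    rw [inertiaDeg_eq_one y hy y' hy' w, hD]
    simp

theorem fundamentalIdentity (y : F) (hy : Transcendental K y) [FiniteDimensional K⟮y⟯ F]
    (y' : F') (hy' : Transcendental K y') [FiniteDimensional K⟮y'⟯ F']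
    [HasPrincipalDivisors K F'] : FundamentalIdentity K F F' := by
  classical
  refine ⟨fun v => ?_⟩
  obtain ⟨ϖ, hϖ⟩ := S24.FF.exists_ord_eq_one v
  have hϖ0 : ϖ ≠ 0 := S24.FF.ne_zero_of_ord_ne_zero v (by omega)
  have h := ord_norm_eq_sum (F' := F') y hy v (v.fiber F') (fun w => Place.mem_fiber)
    (algebraMap F F' ϖ) (by simpa using hϖ0)
  rw [Algebra.norm_algebraMap, S24.FF.ord_pow, hϖ, mul_one] at h
  rw [S24.FF.deg_eq_one K y hy v, h]
  simp only [Nat.cast_one, mul_one]
  refine Finset.sum_congr rfl fun w hw => ?_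
  rw [S24.FF.deg_eq_one K y' hy' w, w.ord_restrict, Place.mem_fiber.mp hw, hϖ]
  simp

end Fermat.Agent.S37.FFNorm
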